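/-
S56, wall W1 (dictionary between deformations to the dual numbers and cocycles): definitions.
Owner of the definitions: helper82 (architect).  FIXED.

`IsDefOf ρbar c ρ` : the deformation `ρ` of `ρbar` to `k[ε]` is (isomorphic to) `(1 + ε c) ρbar` on
`k[ε] ⊗_k V`, for a function `c : G_ℚ → ad⁰ρbar`.
`TangentClasses 𝒪 ρbar 𝒟` : the set of classes in `H¹(G_ℚ, ad⁰ρbar)` (level-constant cocycles modulo
coboundaries, `Fermat.Agent.F4.H1sm levelsAll`) of the deformations of type `𝒟` to `k[ε]`.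
-/
import Fermat.Agent.S56.Interfaces
import Fermat.Agent.S56.Selmer.Defs

set_option autoImplicit false

namespace Fermat.Agent.S56

open Fermat.Agent.F4 IsLocalRing
open scoped TensorProduct

/-- The endomorphism `ρbar(σ) + ε · c ρbar(σ)` of `k[ε] ⊗_k V`. -/
noncomputable def defEnd {k : Type} [Field k] (ρbar : ResidualGaloisRep k)
    (c : Module.End k ρbar.V) (σ : GQ) :
    Module.End (DualNumber k) (DualNumber k ⊗[k] ρbar.V) :=
  (ρbar.ρ σ).baseChange (DualNumber k) +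
    (DualNumber.eps : DualNumber k) • (c * ρbar.ρ σ).baseChange (DualNumber k)

/-- `ρ` is isomorphic to the deformation `(1 + ε c) ρbar` of `ρbar` to the dual numbers. -/
def IsDefOf {k : Type} [Field k] (ρbar : ResidualGaloisRep k) (c : GQ → ad0 ρbar)
    (ρ : GaloisRepAdic (DualNumber k)) : Prop :=
  ∃ e : (DualNumber k ⊗[k] ρbar.V) ≃ₗ[DualNumber k] ρ.V,
    ∀ (σ : GQ) (x : DualNumber k ⊗[k] ρbar.V),
      ρ.ρ σ (e x) = e (defEnd ρbar (c σ : ↥(ad0Sub ρbar)).1 σ x)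

/-- The classes in `H¹(G_ℚ, ad⁰ρbar)` of the deformations of `ρbar` to `k[ε]` of type `𝒟`. -/
def TangentClasses (𝒪 : Type) [CommRing 𝒪] [IsLocalRing 𝒪]
    (ρbar : ResidualGaloisRep (ResidueField 𝒪))
    (𝒟 : ∀ ⦃A : Type⦄ [CommRing A] [IsLocalRing A] [Algebra 𝒪 A], GaloisRepAdic A → Prop) :
    Set (H1sm levelsAll (ad0 ρbar)) :=
  {x | ∃ c : ↥(Z1 levelsAll (ad0 ρbar)), H1smπ levelsAll (ad0 ρbar) c = x ∧
    ∃ ρ : GaloisRepAdic (DualNumber (ResidueField 𝒪)),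
      IsTangentPoint 𝒪 ρbar 𝒟 ρ ∧ IsDefOf ρbar c.1 ρ}

end Fermat.Agent.S56
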