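/-
S56, WALL W1b-unr (F4-independent): ramification of tangent classes.
Statements FIXED (architect helper82); proofs: helper34 (plan checked by helper6).

`(levelsS S).sets` = fixing subgroups of the stable `F` with `F.IsUnramifiedOutside S`, and
`IsUnramifiedOutside` is defined with inertia subgroups, like `IsUnramifiedAt`.
* `isSmooth_ad0`, `isSmooth_ad0Dual` : the kernel of `ρbar` is open, normal and contains the inertia groups
  outside `T` (for the dual: `det ρbar` is trivial on the kernel of `ρbar`).  Cf. F4/BR/Smooth.lean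
  (`br_smooth_mem_levelsS`).
* `tangentClasses_subset_unrOutside` : for `x = [c]`, `ρ ≅ (1 + ε c) ρbar` unramified outside `T`: the kernel
  of `ρ` is open (`ρ.isAdicContinuous 2`), normal, contains the inertia groups outside `T`, and `c` is
  constant on its cosets (`ρ σ = 1` gives `ρbar σ = 1` and `c σ = 0`).
-/
import Fermat.Agent.S56.Local.Walls

set_option autoImplicit false
set_option linter.style.haveILetI false

namespace Fermat.Agent.S56

open Fermat.Agent.F4 ExtCitation IsLocalRing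
open scoped TensorProduct

/-! ### the kernel of `ρbar` is a level -/

/-- A normal subgroup `K` of `Gal(ℚ̄/ℚ)` which contains the fixing subgroup of a finite extension
and all inertia groups outside `S` is a member of `levelsS S`
(same proof as `F4.br_smooth_mem_levelsS`; repeated here to keep the import closure small). -/
theorem w1b_mem_levelsS (S : Finset Nat.Primes) (K : Subgroup GQ) [hK : K.Normal]
    (F₀ : IntermediateField ℚ (AlgebraicClosure ℚ)) [FiniteDimensional ℚ F₀]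
    (hF₀ : F₀.fixingSubgroup ≤ K)
    (hur : ∀ q : Nat.Primes, q ∉ S → ∀ A : ValuationSubring (AlgebraicClosure ℚ),
      A.LiesOverPrime (q : ℕ) → A.inertiaSubgroupIn ℚ ≤ K) :
    K ∈ (levelsS S).sets := by
  have := isGalois_Qbar
  have hopen : IsOpen (K : Set GQ) :=
    Subgroup.isOpen_mono hF₀ (IntermediateField.fixingSubgroup_isOpen F₀)
  have hclosed : IsClosed (K : Set GQ) := Subgroup.isClosed_of_isOpen K hopen
  let Kc : ClosedSubgroup GQ := ⟨K, hclosed⟩
  have hfix : (IntermediateField.fixedField K).fixingSubgroup = K :=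
    InfiniteGalois.fixingSubgroup_fixedField Kc
  have hle : IntermediateField.fixedField K ≤ F₀ := by
    have h1 : IntermediateField.fixedField K ≤
        IntermediateField.fixedField F₀.fixingSubgroup := by
      intro x hx
      rw [IntermediateField.mem_fixedField_iff] at hx ⊢
      exact fun σ hσ => hx σ (hF₀ hσ)
    rwa [InfiniteGalois.fixedField_fixingSubgroup] at h1
  have hfd : FiniteDimensional ℚ (IntermediateField.fixedField K) :=
    FiniteDimensional.of_injective (IntermediateField.inclusion hle).toLinearMap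
      (IntermediateField.inclusion_injective hle)
  refine ⟨IntermediateField.fixedField K, ⟨hfd, fun q hq A hA => ?_⟩, ?_, hfix.symm⟩
  · rw [hfix]
    exact hur q hq A hA
  · intro σ x hx
    rw [IntermediateField.mem_fixedField_iff] at hx ⊢
    intro τ hτ
    have h2 : σ⁻¹ * τ * σ ∈ K := by
      have := hK.conj_mem τ hτ σ⁻¹
      simpa using this
    have h3 := hx _ h2
    have h4 : σ ((σ⁻¹ * τ * σ) x) = τ (σ x) := by
      show σ (σ⁻¹ (τ (σ x))) = τ (σ x)
      show σ (σ.symm (τ (σ x))) = τ (σ x)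
      simp
    rw [← h4, h3]

/-- The kernel of a residual representation unramified outside `T` is a level of `G_T`. -/
theorem w1b_ker_mem_levelsS {k : Type} [Field k] (ρbar : ResidualGaloisRep k)
    (T : Finset ℕ) (hT : ∀ q : ℕ, q.Prime → q ∉ T → ρbar.IsUnramifiedAt q) :
    ρbar.ρ.ker ∈ (levelsS (primesOf T)).sets := by
  obtain ⟨L, hL, h1⟩ := ρbar.factorsThroughFiniteLevel
  haveI := hL
  refine w1b_mem_levelsS (primesOf T) ρbar.ρ.ker L ?_ ?_
  · intro σ hσ
    rw [MonoidHom.mem_ker]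
    exact h1 σ (fun x hx => (IntermediateField.mem_fixingSubgroup_iff L σ).mp hσ x hx)
  · intro q hq A hA σ hσ
    rw [MonoidHom.mem_ker]
    exact hT q q.2 (fun h => hq (mem_primesOf.mpr h)) A hA σ hσ

/-- The kernel of `ρbar` acts trivially on `ad⁰ρbar`. -/
theorem w1b_ad0_ρ_of_mem_ker {k : Type} [Field k] (ρbar : ResidualGaloisRep k) {g : GQ}
    (hg : g ∈ ρbar.ρ.ker) (a : ad0 ρbar) : (ad0 ρbar).ρ g a = a := by
  have h1 : ρbar.ρ g = 1 := MonoidHom.mem_ker.mp hg
  have h2 : ρbar.ρ g⁻¹ = 1 := MonoidHom.mem_ker.mp (ρbar.ρ.ker.inv_mem hg)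
  apply Subtype.ext
  show ρbar.ρ g * ((a : ↥(ad0Sub ρbar)).1 * ρbar.ρ g⁻¹) = (a : ↥(ad0Sub ρbar)).1
  rw [h1, h2, mul_one, one_mul]

/-- `ad⁰ρbar` is unramified outside `T` if `ρbar` is. -/
theorem isSmooth_ad0 {k : Type} [Field k] [Finite k] (ρbar : ResidualGaloisRep k)
    (T : Finset ℕ) (hT : ∀ q : ℕ, q.Prime → q ∉ T → ρbar.IsUnramifiedAt q) :
    IsSmooth (levelsS (primesOf T)) (ad0 ρbar) := by
  intro a
  exact ⟨ρbar.ρ.ker, w1b_ker_mem_levelsS ρbar T hT, fun g hg => w1b_ad0_ρ_of_mem_ker ρbar hg a⟩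

/-- `ad⁰ρbar^*(1)` is unramified outside `T` if `ρbar` is. -/
theorem isSmooth_ad0Dual {k : Type} [Field k] [Finite k] (ρbar : ResidualGaloisRep k)
    (T : Finset ℕ) (hT : ∀ q : ℕ, q.Prime → q ∉ T → ρbar.IsUnramifiedAt q) :
    IsSmooth (levelsS (primesOf T)) (ad0Dual ρbar) := by
  intro f
  refine ⟨ρbar.ρ.ker, w1b_ker_mem_levelsS ρbar T hT, fun g hg => ?_⟩
  have h1 : ρbar.ρ g = 1 := MonoidHom.mem_ker.mp hg
  have hdet : ((detChar ρbar g : kˣ) : k) = 1 := by
    show LinearMap.det (ρbar.ρ g) = 1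
    rw [h1, map_one]
  have key : ∀ f' : Module.Dual k (ad0 ρbar),
      ((ad0 ρbar).dualTwist (detChar ρbar)).ρ g f' = f' := by
    intro f'
    rw [Rep.dualTwist_ρ_apply, hdet, one_smul]
    refine LinearMap.ext fun m => ?_
    show f' ((ad0 ρbar).ρ g⁻¹ m) = f' m
    rw [w1b_ad0_ρ_of_mem_ker ρbar (ρbar.ρ.ker.inv_mem hg) m]
  exact key f

/-! ### the kernel of a deformation to the dual numbers -/

/-- `𝔪² = 0` in the dual numbers. -/
theorem w1b_maximalIdeal_sq {k : Type} [Field k] : (maximalIdeal (DualNumber k)) ^ 2 = ⊥ := by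
  rw [DualNumber.maximalIdeal_eq_span_singleton_eps, Ideal.span_singleton_pow, sq,
    DualNumber.eps_mul_eps]
  simp

/-- The `1`-component `k[ε] ⊗ V → V`. -/
noncomputable def w1bFst {k : Type} [Field k] (V : Type) [AddCommGroup V] [Module k V] :
    (DualNumber k ⊗[k] V) →ₗ[k] V :=
  (TensorProduct.lid k V).toLinearMap ∘ₗ
    LinearMap.rTensor V ((TrivSqZeroExt.fstHom k k k).toLinearMap)

/-- The `ε`-component `k[ε] ⊗ V → V`. -/
noncomputable def w1bSnd {k : Type} [Field k] (V : Type) [AddCommGroup V] [Module k V] :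
    (DualNumber k ⊗[k] V) →ₗ[k] V :=
  (TensorProduct.lid k V).toLinearMap ∘ₗ LinearMap.rTensor V (TrivSqZeroExt.sndHom k k)

theorem w1bFst_tmul {k : Type} [Field k] {V : Type} [AddCommGroup V] [Module k V]
    (a : DualNumber k) (v : V) : w1bFst V (a ⊗ₜ[k] v) = TrivSqZeroExt.fst a • v := by
  simp [w1bFst]

theorem w1bSnd_tmul {k : Type} [Field k] {V : Type} [AddCommGroup V] [Module k V]
    (a : DualNumber k) (v : V) : w1bSnd V (a ⊗ₜ[k] v) = TrivSqZeroExt.snd a • v := by
  simp [w1bSnd]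

theorem w1b_defEnd_one_tmul {k : Type} [Field k] (ρbar : ResidualGaloisRep k)
    (c : Module.End k ρbar.V) (σ : GQ) (v : ρbar.V) :
    defEnd ρbar c σ ((1 : DualNumber k) ⊗ₜ[k] v)
      = (1 : DualNumber k) ⊗ₜ[k] (ρbar.ρ σ v)
        + (DualNumber.eps : DualNumber k) ⊗ₜ[k] (c (ρbar.ρ σ v)) := by
  unfold defEnd
  rw [LinearMap.add_apply, LinearMap.smul_apply, LinearMap.baseChange_tmul,
    LinearMap.baseChange_tmul, TensorProduct.smul_tmul', smul_eq_mul, mul_one]
  rfl

/-- If `(1 + ε c) ρbar(σ) = 1` then `ρbar(σ) = 1` and `c = 0`. -/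
theorem w1b_eq_zero_of_defEnd_eq_one {k : Type} [Field k] (ρbar : ResidualGaloisRep k)
    (c : Module.End k ρbar.V) (σ : GQ) (h : defEnd ρbar c σ = 1) : c = 0 := by
  have h1 : ∀ v : ρbar.V, (1 : DualNumber k) ⊗ₜ[k] (ρbar.ρ σ v)
        + (DualNumber.eps : DualNumber k) ⊗ₜ[k] (c (ρbar.ρ σ v))
      = (1 : DualNumber k) ⊗ₜ[k] v := by
    intro v
    rw [← w1b_defEnd_one_tmul, h, Module.End.one_apply]
  have hρ : ∀ v : ρbar.V, ρbar.ρ σ v = v := by
    intro v
    have := congrArg (w1bFst ρbar.V) (h1 v)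
    rw [map_add, w1bFst_tmul, w1bFst_tmul, w1bFst_tmul, DualNumber.fst_eps,
      TrivSqZeroExt.fst_one, one_smul, zero_smul, add_zero, one_smul] at this
    exact this
  refine LinearMap.ext fun v => ?_
  have := congrArg (w1bSnd ρbar.V) (h1 v)
  rw [map_add, w1bSnd_tmul, w1bSnd_tmul, w1bSnd_tmul, DualNumber.snd_eps,
    TrivSqZeroExt.snd_one, one_smul, zero_smul, zero_add, zero_smul, hρ v] at this
  rw [LinearMap.zero_apply]
  exact this

/-- The tangent classes of a condition which implies "unramified outside `T`" are unramified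
outside `T`. -/
theorem tangentClasses_subset_unrOutside {𝒪 : Type} [CommRing 𝒪] [IsLocalRing 𝒪]
    [Finite (ResidueField 𝒪)] (ρbar : ResidualGaloisRep (ResidueField 𝒪))
    (𝒟 : ∀ ⦃A : Type⦄ [CommRing A] [IsLocalRing A] [Algebra 𝒪 A], GaloisRepAdic A → Prop)
    (T : Finset ℕ)
    (h𝒟 : ∀ ⦃A : Type⦄ [CommRing A] [IsLocalRing A] [Algebra 𝒪 A] (ρ : GaloisRepAdic A),
      𝒟 ρ → ∀ q : ℕ, q.Prime → q ∉ T → ρ.IsUnramifiedAt q)
    (x : H1sm levelsAll (ad0 ρbar)) (hx : x ∈ TangentClasses 𝒪 ρbar 𝒟) :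
    x ∈ unrOutside (primesOf T) (ad0 ρbar) := by
  obtain ⟨c, rfl, ρ, hρ, e, he⟩ := hx
  have hur : ∀ q : ℕ, q.Prime → q ∉ T → ρ.IsUnramifiedAt q :=
    @h𝒟 (DualNumber (ResidueField 𝒪)) _ _ (Fermat.Agent.S53.dualNumberAlgebra 𝒪) ρ hρ.1
  -- the kernel of `ρ` is a level
  have hker : ρ.ρ.ker ∈ (levelsS (primesOf T)).sets := by
    obtain ⟨L, hL, h1⟩ := ρ.isAdicContinuous 2
    haveI := hL
    refine w1b_mem_levelsS (primesOf T) ρ.ρ.ker L ?_ ?_
    · intro σ hσ
      rw [MonoidHom.mem_ker]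
      refine LinearMap.ext fun v => ?_
      have := h1 σ (fun x hx => (IntermediateField.mem_fixingSubgroup_iff L σ).mp hσ x hx) v
      rw [w1b_maximalIdeal_sq, Submodule.bot_smul, Submodule.mem_bot] at this
      rw [Module.End.one_apply]
      exact sub_eq_zero.mp this
    · intro q hq A hA σ hσ
      rw [MonoidHom.mem_ker]
      exact hur q q.2 (fun h => hq (mem_primesOf.mpr h)) A hA σ hσ
  -- the cocycle vanishes on the kernel of `ρ`
  have hc0 : ∀ s ∈ ρ.ρ.ker, c.1 s = 0 := by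
    intro s hs
    have h1 : ρ.ρ s = 1 := MonoidHom.mem_ker.mp hs
    have h2 : defEnd ρbar (c.1 s : ↥(ad0Sub ρbar)).1 s = 1 := by
      refine LinearMap.ext fun y => ?_
      apply e.injective
      rw [← he s y, h1, Module.End.one_apply, Module.End.one_apply]
    apply Subtype.ext
    exact w1b_eq_zero_of_defEnd_eq_one ρbar _ s h2
  -- so it is constant on its cosets
  have hlc : IsLC₁ (levelsS (primesOf T)) (c.1 : GQ → ad0 ρbar) := by
    refine ⟨ρ.ρ.ker, hker, fun g s hs => ?_⟩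
    rw [(groupCohomology.mem_cocycles₁_iff _).mp c.2.1 g s, hc0 s hs, map_zero, zero_add]
  exact Submodule.mem_map_of_mem (f := H1smπ levelsAll (ad0 ρbar)) (p := Z1unr (primesOf T) (ad0 ρbar))
    hlc

end Fermat.Agent.S56
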