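/-
S56, WALL W1b-kill (OPEN LEAF): the space `Ψ` of `SelmerWallC` and the hypothesis of `GWStatement`.
STUBS, statements FIXED.   `N = ad0Dual ρbar`, `Ψ = unrOutside (primesOf Smin) N`.

* `finiteDimensional_unrOutside` : `Ψ` is a quotient of `H¹(G_S, N)`, which is finite:
  `Fermat.Agent.F4Fin.finite_H1sm_levelsS` (F4/Glob/Fin/Main.lean) for `N` as an `𝔽_p`-module (restriction
  of scalars: the cocycles and the coboundaries are the same functions).
* `eq_zero_of_kills` : let `n = [c]` be unramified outside `Smin ∪ Q` with `res_q n = 0` for `q ∈ Q`.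
  (a) `c` vanishes on every inertia group over `q ∈ Q`: on the image `D` of `primeLocalToGlobal q` it is
      `h ↦ h x - x`, inertia acts trivially on `N` (`q ∉ Smin`), and `c (g h g⁻¹) = (1 - g h g⁻¹) c g + g c h`;
      so `c` is constant on the cosets of the normal subgroup generated by a level of `c` inside the kernel
      of `N` and these inertia groups: `n ∈ Ψ`.
  (b) `VanishesAt N c q`: the image of `primeLocalToGlobal q` contains a Frobenius element at
      `primeLocalPlace q` (Lib/FrobDensity/Bridge.lean `exists_isFrobeniusAt_of_liesOver`,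
      F4/Loc/Datum/Open.lean).
  Then `hkill` gives `n = 0`.
-/
import Fermat.Agent.S56.Local.Walls
import Fermat.Agent.S56.W1.Unr
import Fermat.Agent.S56.W1.Kill.Fin
import Fermat.Agent.S56.W1.Kill.Vanish

set_option autoImplicit false

namespace Fermat.Agent.S56

open Fermat.Agent.F4 ExtCitation

/-- The classes of `H¹(G_ℚ, ad⁰ρbar^*(1))` unramified outside `T ∋ p` form a finite-dimensional
space. -/
theorem finiteDimensional_unrOutside {k : Type} [Field k] [Finite k] (p : ℕ) [Fact p.Prime]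
    (hpk : (p : k) = 0) (ρbar : ResidualGaloisRep k) (T : Finset ℕ) (hpT : p ∈ T)
    (hT : ∀ q : ℕ, q.Prime → q ∉ T → ρbar.IsUnramifiedAt q) :
    FiniteDimensional k (unrOutside (primesOf T) (ad0Dual ρbar)) := by
  have hfinN : Module.Finite k (ad0Dual ρbar) := by
    show Module.Finite k (Module.Dual k ↥(ad0Sub ρbar))
    infer_instance
  have hfinN' : Finite (ad0Dual ρbar) := Module.finite_of_finite k
  have hsm := isSmooth_ad0Dual ρbar T hT
  have hfin := kill_finite_unrOutside p hpk (ad0Dual ρbar) (primesOf T) hsm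
  have hfin' : Finite ↥(unrOutside (primesOf T) (ad0Dual ρbar)) := hfin.to_subtype
  exact Module.Finite.of_finite

/-- If `Q` kills the classes unramified outside `Smin`, then a class unramified outside
`Smin ∪ Q` which is locally trivial at every `q ∈ Q` is zero. -/
theorem eq_zero_of_kills {k : Type} [Field k] [Finite k] (p : ℕ) [Fact p.Prime]
    (ρbar : ResidualGaloisRep k) (Smin Q : Finset ℕ) (hpSmin : p ∈ Smin)
    (hunr : ∀ q : ℕ, q.Prime → q ∉ Smin → ρbar.IsUnramifiedAt q)
    (hQ : ∀ q ∈ Q, q.Prime ∧ q ∉ Smin)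
    (hkill : Kills ρbar (unrOutside (primesOf Smin) (ad0Dual ρbar)) Q)
    (n : H1sm levelsAll (ad0Dual ρbar))
    (hn : n ∈ unrOutside (primesOf Smin ∪ primesOf Q) (ad0Dual ρbar))
    (hloc : ∀ q ∈ primesOf Q, resLoc (ad0Dual ρbar) q n = 0) : n = 0 := by
  classical
  obtain ⟨c, hcunr, rfl⟩ := hn
  -- a level of `c`, a level of `ρbar`
  obtain ⟨W, ⟨F, hFur, -, rfl⟩, hW⟩ := hcunr
  obtain ⟨L, hLfd, hL⟩ := ρbar.factorsThroughFiniteLevel
  have hFfd : FiniteDimensional ℚ F := hFur.1
  have hc : (c : GQ → ad0Dual ρbar) ∈ groupCohomology.cocycles₁ (ad0Dual ρbar) := c.2.1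
  have hFL : (F ⊔ L).fixingSubgroup ≤ killSub (ad0Dual ρbar) c.1 hc := by
    intro s hs
    rw [IntermediateField.fixingSubgroup_sup] at hs
    refine ⟨kill_ad0Dual_ρ_eq_one ρbar s (hL s fun x hx =>
      (IntermediateField.mem_fixingSubgroup_iff L s).1 hs.2 x hx), ?_⟩
    have h1 := hW 1 s hs.1
    rw [one_mul] at h1
    rw [h1]
    exact kill_cocycle_one (ad0Dual ρbar) c.1 hc
  have hFLfd : FiniteDimensional ℚ ↥(F ⊔ L) := IntermediateField.finiteDimensional_sup F L
  -- the local coboundaries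
  have hx : ∀ q ∈ primesOf Q, ∃ x : ad0Dual ρbar, ∀ h : primeLocalGaloisGroup q,
      (c : GQ → ad0Dual ρbar) (primeLocalToGlobal q h) =
        (ad0Dual ρbar).ρ (primeLocalToGlobal q h) x - x := by
    intro q hq
    have h1 := hloc q hq
    have h2 : resLoc (ad0Dual ρbar) q (H1smπ levelsAll (ad0Dual ρbar) c) =
        Submodule.Quotient.mk (Z1res levelsAll (ad0Dual ρbar) (primeLocalToGlobal q) c) := rfl
    rw [h2, Submodule.Quotient.mk_eq_zero] at h1
    obtain ⟨x, hx⟩ := h1
    refine ⟨x, fun h => ?_⟩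
    have h3 := congrFun hx h
    rw [groupCohomology.d₀₁_hom_apply] at h3
    exact h3.symm
  -- the action on `N` is unramified outside `Smin`
  have hNur : ∀ q : Nat.Primes, q ∉ primesOf Smin →
      ∀ A : ValuationSubring (AlgebraicClosure ℚ), A.LiesOverPrime (q : ℕ) →
      ∀ σ ∈ A.inertiaSubgroupIn ℚ, (ad0Dual ρbar).ρ σ = 1 := by
    intro q hq A hA σ hσ
    exact kill_ad0Dual_ρ_eq_one ρbar σ
      (hunr q q.2 (fun h => hq (mem_primesOf.2 h)) A hA σ hσ)
  -- `killSub` is a level unramified outside `Smin`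
  have hH : killSub (ad0Dual ρbar) c.1 hc ∈ (levelsS (primesOf Smin)).sets := by
    refine br_smooth_mem_levelsS (primesOf Smin) _ (F ⊔ L) hFL ?_
    intro q hq A hA
    by_cases hqQ : q ∈ primesOf Q
    · obtain ⟨x, hx⟩ := hx q hqQ
      exact kill_inertia_le (ad0Dual ρbar) c.1 hc q (F ⊔ L) hFL x hx (hNur q hq) A hA
    · intro σ hσ
      refine ⟨hNur q hq A hA σ hσ, ?_⟩
      have hσF : σ ∈ F.fixingSubgroup :=
        hFur.2 q (fun h => by
          rcases Finset.mem_union.1 h with h | h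
          · exact hq h
          · exact hqQ h) A hA hσ
      have h1 := hW 1 σ hσF
      rw [one_mul] at h1
      rw [h1]
      exact kill_cocycle_one (ad0Dual ρbar) c.1 hc
  have hΨ : H1smπ levelsAll (ad0Dual ρbar) c ∈ unrOutside (primesOf Smin) (ad0Dual ρbar) :=
    ⟨c, ⟨_, hH, fun g s hs => kill_apply_mul (ad0Dual ρbar) c.1 hc g s hs⟩, rfl⟩
  refine hkill c hΨ fun q hq => ?_
  obtain ⟨hqp, -⟩ := hQ q hq
  have hq' : (⟨q, hqp⟩ : Nat.Primes) ∈ primesOf Q := mem_primesOf.2 hq
  obtain ⟨x, hx⟩ := hx _ hq'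
  have hP : (primeLocalPlace ⟨q, hqp⟩).LiesOverPrime q := primeLocalPlace_liesOverPrime ⟨q, hqp⟩
  obtain ⟨φ, hφ, -⟩ := Fermat.Agent.FrobBridge.exists_isFrobeniusAt_of_liesOver
    (primeLocalPlace ⟨q, hqp⟩) q hqp hP
  exact ⟨primeLocalPlace ⟨q, hqp⟩, hP, φ, hφ, x,
    kill_apply_of_mem_decomposition (ad0Dual ρbar) c.1 hc ⟨q, hqp⟩ (F ⊔ L) hFL x hx φ
      hφ.mem_decompositionSubgroup⟩

end Fermat.Agent.S56
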