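/-
S56, wall W1a (OPEN LEAF, F4-independent): deformations to the dual numbers are `(1 + ε c) ρbar`
for level-constant trace-zero cocycles `c`, and cohomologous cocycles give equivalent deformations.
Statements FIXED (architect helper82).

Hints.  `exists_cocycle_of_tangentPoint`: `ρ.V` is free of rank 2 over `k[ε]`; lift a `k`-basis of
`V ≅ ρ.V/ε` (from `hρ.2`) to a `k[ε]`-basis, this gives `e`; `c σ := ε`-part of
`e⁻¹ ∘ ρ σ ∘ e ∘ ρbar(σ)⁻¹`; cocycle = multiplicativity of `ρ`; trace zero from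
`det ρ σ = det ρbar σ` (`DetIsCyclotomic` with `n = 1`: `(p : k[ε]) = 0`, cf. S59/DefCond/Det.lean) and
`det (1 + ε c) = 1 + ε tr c`; level-constant from `ρ.isAdicContinuous 2` (`𝔪² = 0`).
`isEquiv_of_isDefOf`: if `c' σ = c σ + (ρbar σ) m (ρbar σ)⁻¹ - m` then `1 + ε m` intertwines.
`tangentCardLe_of_tangentClasses`: enumerate the finite set of classes.
-/
import Fermat.Agent.S56.W1.Defs
import Fermat.Agent.S56.W1.Cocycle.Core
import Fermat.Agent.S56.W1.Cocycle.EquivCard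
import Fermat.Prelude.Def_GaloisRep_LocalConditions

set_option autoImplicit false

namespace Fermat.Agent.S56

open Fermat.Agent.F4 IsLocalRing

/-- W1a-1: every deformation to `k[ε]` with cyclotomic determinant comes from a level-constant
trace-zero cocycle. -/
theorem exists_cocycle_of_tangentPoint {𝒪 : Type} [CommRing 𝒪] [IsLocalRing 𝒪]
    (p : ℕ) [Fact p.Prime] (ρbar : ResidualGaloisRep (ResidueField 𝒪))
    (hdet : (GaloisRepAdic.ofResidualGaloisRep ρbar).DetIsCyclotomic p)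
    {𝒟 : ∀ ⦃A : Type⦄ [CommRing A] [IsLocalRing A] [Algebra 𝒪 A], GaloisRepAdic A → Prop}
    (h𝒟 : ∀ ⦃A : Type⦄ [CommRing A] [IsLocalRing A] [Algebra 𝒪 A] (ρ : GaloisRepAdic A),
      𝒟 ρ → ρ.DetIsCyclotomic p)
    (ρ : GaloisRepAdic (DualNumber (ResidueField 𝒪))) (hρ : IsTangentPoint 𝒪 ρbar 𝒟 ρ) :
    ∃ c : ↥(Z1 levelsAll (ad0 ρbar)), IsDefOf ρbar c.1 ρ := by
  letI := Fermat.Agent.S53.dualNumberAlgebra 𝒪
  exact w1c_exists_cocycle p ρbar hdet ρ (h𝒟 ρ hρ.1) hρ.2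

/-- W1a-2: the class of the cocycle determines the deformation up to equivalence. -/
theorem isEquiv_of_isDefOf {k : Type} [Field k] (ρbar : ResidualGaloisRep k)
    (c c' : ↥(Z1 levelsAll (ad0 ρbar))) (ρ ρ' : GaloisRepAdic (DualNumber k))
    (h : IsDefOf ρbar c.1 ρ) (h' : IsDefOf ρbar c'.1 ρ')
    (hcc : H1smπ levelsAll (ad0 ρbar) c = H1smπ levelsAll (ad0 ρbar) c') : ρ.IsEquiv ρ' :=
  w1c_isEquiv_of_isDefOf ρbar c c' ρ ρ' h h' hcc

/-- W1a: the number of classes of deformations of type `𝒟` to `k[ε]` is at most the number of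
their cohomology classes. -/
theorem tangentCardLe_of_tangentClasses {𝒪 : Type} [CommRing 𝒪] [IsLocalRing 𝒪]
    (p : ℕ) [Fact p.Prime] (ρbar : ResidualGaloisRep (ResidueField 𝒪))
    (hdet : (GaloisRepAdic.ofResidualGaloisRep ρbar).DetIsCyclotomic p)
    {𝒟 : ∀ ⦃A : Type⦄ [CommRing A] [IsLocalRing A] [Algebra 𝒪 A], GaloisRepAdic A → Prop}
    (h𝒟 : ∀ ⦃A : Type⦄ [CommRing A] [IsLocalRing A] [Algebra 𝒪 A] (ρ : GaloisRepAdic A),
      𝒟 ρ → ρ.DetIsCyclotomic p)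
    (N : ℕ) (hN : 0 < N) (hfin : (TangentClasses 𝒪 ρbar 𝒟).Finite)
    (hcard : (TangentClasses 𝒪 ρbar 𝒟).ncard ≤ N) :
    TangentCardLe 𝒪 ρbar 𝒟 N :=
  w1c_tangentCardLe_of ρbar
    (fun ρ hρ => exists_cocycle_of_tangentPoint p ρbar hdet h𝒟 ρ hρ) N hN hfin hcard

end Fermat.Agent.S56
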